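import Fermat.Agent.M59.SinkA.Low.Seams
import Fermat.Agent.S44.Bridge.Eigen

/-!
M59 / SINK A: twin of the `Frame` section of S44/Bridge/Eigen.lean (helper7) for a package
`P : m59sa_Pkg` (proofs verbatim).  Prefix `m59sab_`.
-/

set_option autoImplicit false
set_option linter.unusedSectionVars false

namespace Fermat.Agent.M59

open ModularCurve AlgebraicCurve Fermat.Agent.JT3 Fermat.Agent.S24 Fermat.Agent.SS2 Fermat.Agent.S44

section Frame

variable {P : m59sa_Pkg} {M : ℕ} [NeZero M] [NeZero (M * P.p)] (Fr : m59sa_Frame P M)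

local notation "Qb" => AlgebraicClosure ℚ

/-- **[TOR], last step**: Kummer relations for all `σ ∈ Γ` give `ChiEigen z`. -/
theorem m59sab_chiEigen_of_kummer {z : JZero (M * P.p)} {f : modularFunctionFieldBar (M * P.p)}
    (hf : s44f_Rep (M * P.p) P.p z f)
    (h : ∀ σ ∈ Fr.Γ, ∀ k : ℕ, σ Fr.ζ = Fr.ζ ^ k →
      ∃ (c : Qb) (g : modularFunctionFieldBar (M * P.p)), c ≠ 0 ∧ g ≠ 0 ∧
        arithmeticGalois (modularFunctionFieldFull (M * P.p)) σ • f =
          algebraMap Qb (modularFunctionFieldBar (M * P.p)) c * f ^ k * g ^ P.p) :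
    Fr.ChiEigen z := fun σ hσ k hk =>
  s44b_smul_eq_nsmul_of_kummer (M * P.p) P.hp0 σ k hf (h σ hσ k hk)

/-- **[PSI-EIG], first step**: `ChiEigen z` gives Kummer relations for any representative. -/
theorem m59sab_kummer_of_chiEigen {z : JZero (M * P.p)} {f : modularFunctionFieldBar (M * P.p)}
    (hf : s44f_Rep (M * P.p) P.p z f) (h : Fr.ChiEigen z) :
    ∀ σ ∈ Fr.Γ, ∀ k : ℕ, σ Fr.ζ = Fr.ζ ^ k →
      ∃ (c : Qb) (g : modularFunctionFieldBar (M * P.p)), c ≠ 0 ∧ g ≠ 0 ∧
        arithmeticGalois (modularFunctionFieldFull (M * P.p)) σ • f =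
          algebraMap Qb (modularFunctionFieldBar (M * P.p)) c * f ^ k * g ^ P.p :=
  fun σ hσ k hk => s44b_kummer_of_smul_eq_nsmul (M * P.p) σ k hf (h σ hσ k hk)

end Frame

end Fermat.Agent.M59
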