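import Fermat.Agent.M59.SinkA.Low.Seams
import Fermat.Agent.S44.Bridge.FrameCor

/-!
M59 / SINK A: twin of S44/Bridge/FrameCor.lean (helper7), frame v2 part, for a package
`P : m59sa_Pkg` (generated by helper20's `twin_extract.py`; proofs verbatim).  Prefix `m59sab_`.
-/

set_option autoImplicit false

namespace Fermat.Agent.M59

open ModularCurve AlgebraicCurve Fermat.Agent.JT3 Fermat.Agent.SS Fermat.Agent.S44

variable (P : m59sa_Pkg) (M : ℕ) [NeZero M] [NeZero (M * P.p)] (hpM : ¬ P.p ∣ M)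

theorem m59sab_D1inf2_of_depth {c : s44_Qb} (hc : c ≠ 0) (hcA : c ∈ (s44f_A P.p P.pp).nonunits)
    {z : JZero (M * P.p)}
    (h : s44f_Depth2 (M * P.p) (s44f_A P.p P.pp) P.p c (AlgHom.id _ _) z) :
    (m59sa_frame2 P M hpM).D1inf z := ⟨c, hc, hcA, h⟩

theorem m59sab_D102_of_depth {c : s44_Qb} (hc : c ≠ 0) (hcA : c ∈ (s44f_A P.p P.pp).nonunits)
    {z : JZero (M * P.p)}
    (h : s44f_Depth2 (M * P.p) (s44f_A P.p P.pp) P.p c (ssm_al_Wbar M P.p P.pp hpM) z) :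
    (m59sa_frame2 P M hpM).D10 z := ⟨c, hc, hcA, h⟩

/-- **`Split` (frame v2) from depth `≥ π ^ n` for all large `n`.** -/
theorem m59sab_split2_of_pow {π : s44_Qb} (hπ : π ∈ (s44f_A P.p P.pp).nonunits) (hπ0 : π ≠ 0)
    {z : JZero (M * P.p)} (n₀ : ℕ)
    (h : ∀ n : ℕ, n₀ ≤ n →
      s44f_Depth2 (M * P.p) (s44f_A P.p P.pp) P.p (π ^ n) (AlgHom.id _ _) z ∧
      s44f_Depth2 (M * P.p) (s44f_A P.p P.pp) P.p (π ^ n) (ssm_al_Wbar M P.p P.pp hpM) z) :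
    (m59sa_frame2 P M hpM).Split z := by
  intro c hc
  obtain ⟨n₁, hn₁⟩ := s44b_A_arch' (s44f_A P.p P.pp) P.pp (s44f_A_liesOver P.p P.pp) hc hπ hπ0
  have hn := hn₁ (max n₀ n₁) (le_max_right _ _)
  have hd := h (max n₀ n₁) (le_max_left _ _)
  exact ⟨s44b_depth2_mono' _ _ _ hc hn _ hd.1, s44b_depth2_mono' _ _ _ hc hn _ hd.2⟩

/-- `Split` (frame v2) gives every depth -/
theorem m59sab_split2_depth {z : JZero (M * P.p)} (h : (m59sa_frame2 P M hpM).Split z)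
    {c : s44_Qb} (hc : c ≠ 0) :
    s44f_Depth2 (M * P.p) (s44f_A P.p P.pp) P.p c (AlgHom.id _ _) z ∧
    s44f_Depth2 (M * P.p) (s44f_A P.p P.pp) P.p c (ssm_al_Wbar M P.p P.pp hpM) z := h c hc

/-- `Split ⟹ D1inf ∧ D10` (frame v2) -/
theorem m59sab_split2_D1 {z : JZero (M * P.p)} (h : (m59sa_frame2 P M hpM).Split z) :
    (m59sa_frame2 P M hpM).D1inf z ∧ (m59sa_frame2 P M hpM).D10 z := by
  have hp0 : (P.p : s44_Qb) ≠ 0 := by exact_mod_cast P.hp0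
  have hpA : (P.p : s44_Qb) ∈ (s44f_A P.p P.pp).nonunits := s44f_A_liesOver P.p P.pp
  exact ⟨⟨_, hp0, hpA, (h _ hp0).1⟩, ⟨_, hp0, hpA, (h _ hp0).2⟩⟩

end Fermat.Agent.M59
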